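/-
PROJECT I (S37), slice I-E (E1) (helper3): the action of a field automorphism `τ` of `k` on
`k((q))`, on `F_k = modularFunctionFieldFullC k N`, on its places, divisors and on
`JZeroC k N = Pic0 k F_k`.

The generic part (a `τ`-semilinear ring automorphism of `F` acts on `Place k F`, `Divisor k F`,
`Pic0 k F`) is the prelude's `AlgebraicCurve.SemilinearAut`; this file is the analogue of the
prelude's `ModularCurve.arithmeticGalois` on the characteristic-`ℓ` side:

* `coeffRingAut k N τ`  : `F_k ≃+* F_k`, coefficientwise (`F_k` is stable: its generators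
                          `j(q^d)` have prime-field coefficients);
* `coeffAut k N`        : `RingAut k →* SemilinearAut k F_k`;
* `pic0Equiv k N τ`     : `JZeroC k N ≃+ JZeroC k N` (+ `pic0Equiv_mk`, `one`, `mul`, `symm`);
* `frobAut k ℓ`         : the `ℓ`-power Frobenius of a perfect field as a `RingAut`, and
  `frobPic0 k N ℓ := pic0Equiv k N (frobAut k ℓ)` — the `Fb` of `ReductionJZero.hasReduction_of_equiv`.
-/
import Mathlib
import Fermat.Prelude.Def_ModularCurve_X0ModL
import Fermat.Prelude.Def_AlgebraicCurve_BaseChangeGalois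

set_option autoImplicit false
set_option linter.unusedSectionVars false

noncomputable section

namespace Fermat.Agent.S37.Equivariance.CoeffAut

open AlgebraicCurve ModularCurve IntermediateField

variable (k : Type*) [Field k] (N : ℕ) [NeZero N]

/-! ### stability of `F_k` under coefficientwise maps -/

variable {k} in
theorem coeffMap_generator (τ : k →+* k) (d : ℕ) [NeZero d] :
    coeffMap τ (qExpand k d (jqModC k)) = qExpand k d (jqModC k) := by
  rw [coeffMap_qExpand, coeffMap_jqModC]

omit [NeZero N] in
theorem mem_fullC_iff {x : LaurentSeries k} :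
    x ∈ modularFunctionFieldFullC k N ↔
      x ∈ Subfield.closure
        (Set.range (algebraMap k (LaurentSeries k)) ∪ divisorExpansionsC k N) :=
  Iff.rfl

variable {k N} in
omit [NeZero N] in
theorem coeffMap_mem_fullC (τ : k →+* k) {x : LaurentSeries k}
    (hx : x ∈ modularFunctionFieldFullC k N) :
    coeffMap τ x ∈ modularFunctionFieldFullC k N := by
  rw [mem_fullC_iff] at hx
  induction hx using Subfield.closure_induction with
  | mem y hy =>
      rcases hy with ⟨a, rfl⟩ | ⟨d, hd, hdN, rfl⟩
      · rw [coeffMap_algebraMap]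
        exact (modularFunctionFieldFullC k N).algebraMap_mem _
      · have := hd
        rw [coeffMap_generator]
        exact jqModCd_mem_full k N hdN
  | one => simp
  | add x y _ _ hx hy => simpa using add_mem hx hy
  | neg x _ hx => simpa using neg_mem hx
  | inv x _ hx => simpa using inv_mem hx
  | mul x y _ _ hx hy => simpa using mul_mem hx hy

/-! ### the semilinear automorphisms -/

/-- `τ` acting coefficientwise on `F_k`. -/
def coeffRingAut (τ : k ≃+* k) :
    (modularFunctionFieldFullC k N) ≃+* (modularFunctionFieldFullC k N) where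
  toFun x := ⟨coeffMap (τ : k →+* k) (x : LaurentSeries k), coeffMap_mem_fullC _ x.2⟩
  invFun x := ⟨coeffMap (τ.symm : k →+* k) (x : LaurentSeries k), coeffMap_mem_fullC _ x.2⟩
  left_inv x := Subtype.ext <| by
    show coeffMap (τ.symm : k →+* k) (coeffMap (τ : k →+* k) (x : LaurentSeries k))
      = (x : LaurentSeries k)
    rw [coeffMap_coeffMap,
      coeffMap_congr (g := RingHom.id k) (RingHom.ext fun a => τ.symm_apply_apply a)
        (x : LaurentSeries k),
      coeffMap_id]
  right_inv x := Subtype.ext <| by
    show coeffMap (τ : k →+* k) (coeffMap (τ.symm : k →+* k) (x : LaurentSeries k))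
      = (x : LaurentSeries k)
    rw [coeffMap_coeffMap,
      coeffMap_congr (g := RingHom.id k) (RingHom.ext fun a => τ.apply_symm_apply a)
        (x : LaurentSeries k),
      coeffMap_id]
  map_mul' x y :=
    Subtype.ext (map_mul (coeffMap (τ : k →+* k)) (x : LaurentSeries k) (y : LaurentSeries k))
  map_add' x y :=
    Subtype.ext (map_add (coeffMap (τ : k →+* k)) (x : LaurentSeries k) (y : LaurentSeries k))

@[simp]
theorem coe_coeffRingAut_apply (τ : k ≃+* k) (x : modularFunctionFieldFullC k N) :
    (coeffRingAut k N τ x : LaurentSeries k) = coeffMap (τ : k →+* k) (x : LaurentSeries k) :=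
  rfl

theorem coeff_coeffRingAut_apply (τ : k ≃+* k) (x : modularFunctionFieldFullC k N) (n : ℤ) :
    (coeffRingAut k N τ x : LaurentSeries k).coeff n = τ ((x : LaurentSeries k).coeff n) :=
  rfl

theorem coeffRingAut_algebraMap (τ : k ≃+* k) (a : k) :
    coeffRingAut k N τ (algebraMap k (modularFunctionFieldFullC k N) a)
      = algebraMap k (modularFunctionFieldFullC k N) (τ a) :=
  Subtype.ext (coeffMap_algebraMap (τ : k →+* k) a)

/-- `RingAut k` acts on `F_k` by semilinear automorphisms. -/
def coeffAut : RingAut k →* SemilinearAut k (modularFunctionFieldFullC k N) where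
  toFun τ := ⟨(coeffRingAut k N τ, τ), fun a => coeffRingAut_algebraMap k N τ a⟩
  map_one' := by
    refine Subtype.ext (Prod.ext (RingEquiv.ext fun x => Subtype.ext ?_) rfl)
    show coeffMap ((1 : RingAut k) : k →+* k) (x : LaurentSeries k) = (x : LaurentSeries k)
    rw [show ((1 : RingAut k) : k →+* k) = RingHom.id k from RingHom.ext fun _ => rfl,
      coeffMap_id]
  map_mul' σ τ := by
    refine Subtype.ext (Prod.ext (RingEquiv.ext fun x => Subtype.ext ?_) rfl)
    show coeffMap ((σ * τ : RingAut k) : k →+* k) (x : LaurentSeries k)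
      = coeffMap (σ : k →+* k) (coeffMap (τ : k →+* k) (x : LaurentSeries k))
    rw [coeffMap_coeffMap]
    exact coeffMap_congr (RingHom.ext fun _ => rfl) _

@[simp]
theorem toRingAut_coeffAut (τ : RingAut k) :
    SemilinearAut.toRingAut (coeffAut k N τ) = coeffRingAut k N τ :=
  rfl

@[simp]
theorem baseAut_coeffAut (τ : RingAut k) :
    SemilinearAut.baseAut (coeffAut k N τ) = τ :=
  rfl

theorem coe_coeffAut_smul (τ : RingAut k) (x : modularFunctionFieldFullC k N) :
    ((coeffAut k N τ • x : modularFunctionFieldFullC k N) : LaurentSeries k)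
      = coeffMap (τ : k →+* k) (x : LaurentSeries k) :=
  rfl

/-- the generators `j(q^d)` are fixed -/
theorem coeffAut_smul_generator (τ : RingAut k) (d : ℕ) [NeZero d] (hd : d ∣ N) :
    coeffAut k N τ • (⟨qExpand k d (jqModC k), jqModCd_mem_full k N hd⟩ :
        modularFunctionFieldFullC k N)
      = ⟨qExpand k d (jqModC k), jqModCd_mem_full k N hd⟩ :=
  Subtype.ext (coeffMap_generator (τ : k →+* k) d)

/-! ### the action on places, divisors and `JZeroC k N` -/

/-- the action on places -/
def placeEquiv (τ : RingAut k) :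
    Place k (modularFunctionFieldFullC k N) ≃ Place k (modularFunctionFieldFullC k N) :=
  MulAction.toPerm (coeffAut k N τ)

theorem placeEquiv_apply (τ : RingAut k) (v : Place k (modularFunctionFieldFullC k N)) :
    placeEquiv k N τ v = coeffAut k N τ • v := rfl

theorem ord_placeEquiv (τ : RingAut k) (v : Place k (modularFunctionFieldFullC k N))
    (f : modularFunctionFieldFullC k N) :
    (placeEquiv k N τ v).ord (coeffRingAut k N τ f) = v.ord f :=
  SemilinearAut.ord_smul (coeffAut k N τ) v f

/-- the action on `JZeroC k N` as an additive automorphism -/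
def pic0Equiv (τ : RingAut k) : JZeroC k N ≃+ JZeroC k N :=
  DistribMulAction.toAddEquiv (JZeroC k N) (coeffAut k N τ)

theorem pic0Equiv_apply (τ : RingAut k) (x : JZeroC k N) :
    pic0Equiv k N τ x = coeffAut k N τ • x := rfl

theorem pic0Equiv_one (x : JZeroC k N) : pic0Equiv k N 1 x = x := by
  rw [pic0Equiv_apply, map_one, one_smul]

theorem pic0Equiv_mul (σ τ : RingAut k) (x : JZeroC k N) :
    pic0Equiv k N (σ * τ) x = pic0Equiv k N σ (pic0Equiv k N τ x) := by
  rw [pic0Equiv_apply, pic0Equiv_apply, pic0Equiv_apply, map_mul, mul_smul]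

theorem pic0Equiv_symm_apply (τ : RingAut k) (x : JZeroC k N) :
    (pic0Equiv k N τ).symm x = pic0Equiv k N τ⁻¹ x := by
  rw [AddEquiv.symm_apply_eq, ← pic0Equiv_mul, mul_inv_cancel, pic0Equiv_one]

theorem pic0Equiv_mk (τ : RingAut k)
    (D : Divisor.degZero (K := k) (F := modularFunctionFieldFullC k N)) :
    pic0Equiv k N τ (Pic0.mk D) = Pic0.mk (SemilinearAut.degZeroSMulHom (coeffAut k N τ) D) :=
  SemilinearAut.pic0_smul_mk (coeffAut k N τ) D

/-! ### Frobenius -/

section Frobenius

variable (ℓ : ℕ) [Fact ℓ.Prime] [CharP k ℓ] [PerfectField k]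

/-- the `ℓ`-power Frobenius of a perfect field of characteristic `ℓ` -/
def frobAut : RingAut k := frobeniusEquiv k ℓ

theorem frobAut_apply (a : k) : frobAut k ℓ a = a ^ ℓ := by
  show frobeniusEquiv k ℓ a = a ^ ℓ
  rw [frobeniusEquiv_apply, frobenius_def]

/-- **the Frobenius of `JZeroC k N`**: the `Fb` of the reduction interface. -/
def frobPic0 : JZeroC k N ≃+ JZeroC k N := pic0Equiv k N (frobAut k ℓ)

theorem frobPic0_apply (x : JZeroC k N) :
    frobPic0 k N ℓ x = coeffAut k N (frobAut k ℓ) • x := rfl

/-- Frobenius on functions: coefficientwise `ℓ`-th powers. -/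
theorem coeff_frob_apply (x : modularFunctionFieldFullC k N) (n : ℤ) :
    (coeffRingAut k N (frobAut k ℓ) x : LaurentSeries k).coeff n
      = ((x : LaurentSeries k).coeff n) ^ ℓ := by
  rw [coeff_coeffRingAut_apply, frobAut_apply]

end Frobenius

end Fermat.Agent.S37.Equivariance.CoeffAut
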