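/-
PROJECT I (S37), slice I-E (E2) (helper3): the Gauss valuation ring `OwV` of `F_L` and its
reduction `redV : OwV → F_k` (`S18/GaussFromH.lean`) are equivariant for the decomposition group.

ABSTRACT FORM.  `σ : L ≃ₐ[ℚ] L`, `σA : A ≃+* A` its restriction to the valuation subring `A`,
`sbar : k ≃+* k` with `π ∘ σA = sbar ∘ π`.  Then `σ` (acting on `F_L` coefficientwise:
`arithmeticRingAut`) preserves `intRing`, `Ow`, `OwV hrep`, and

  `redV hrep (σ f) = coeffRingAut k N sbar (redV hrep f)`.

INSTANCE.  `σ ∈ A.decompositionSubgroup ℚ`, `k = ResidueField A`, `π = residue`, `sbar` = the action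
of `σ` on the residue field (`resAut`); `resAut = 1` on inertia and `resAut = frobAut` for a
Frobenius element.
-/
import Mathlib
import Fermat.Agent.S18.GaussFromH
import Fermat.Agent.S37.Equivariance.CoeffAut
import Fermat.Prelude.Def_FLTPrelim_Ramification
import Fermat.Prelude.Def_EllipticCurve_FrobeniusTrace

set_option autoImplicit false
set_option linter.unusedSectionVars false

noncomputable section

namespace Fermat.Agent.S37.Equivariance.GaussEquiv

open HahnSeries IntermediateField AlgebraicCurve ModularCurve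
  Fermat.Agent.S18.GaussFromH Fermat.Agent.S37.Equivariance.CoeffAut

open scoped Pointwise

section Abstract

variable {L : Type*} [Field L] [Algebra ℚ L] (A : ValuationSubring L)
variable {k : Type*} [Field k] (π : A →+* k) (N : ℕ) [NeZero N]

set_option quotPrecheck false in
local notation "FL" => ↥(laurentBaseChange L (modularFunctionFieldFull N))

/-- the compatibility datum: `σ` preserves `A` (through `σA`) and induces `sbar` on `k`. -/
structure Compat (σ : L ≃ₐ[ℚ] L) (σA : A ≃+* A) (sbar : k ≃+* k) : Prop where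
  coe : ∀ a : A, ((σA a : A) : L) = σ (a : L)
  res : ∀ a : A, π (σA a) = sbar (π a)

variable {A π N}
variable {σ : L ≃ₐ[ℚ] L} {σA : A ≃+* A} {sbar : k ≃+* k}

theorem Compat.symm (h : Compat A π σ σA sbar) : Compat A π σ.symm σA.symm sbar.symm where
  coe a := by
    apply σ.injective
    rw [AlgEquiv.apply_symm_apply, ← h.coe, RingEquiv.apply_symm_apply]
  res a := by
    apply sbar.injective
    rw [RingEquiv.apply_symm_apply, ← h.res, RingEquiv.apply_symm_apply]

theorem Compat.coeffMap_subtype (h : Compat A π σ σA sbar) (y : LaurentSeries A) :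
    coeffMap A.subtype (coeffMap (σA : A →+* A) y)
      = coeffMap (σ : L →+* L) (coeffMap A.subtype y) := by
  rw [coeffMap_coeffMap, coeffMap_coeffMap]
  exact coeffMap_congr (RingHom.ext fun a => h.coe a) y

theorem Compat.coeffMap_res (h : Compat A π σ σA sbar) (y : LaurentSeries A) :
    coeffMap π (coeffMap (σA : A →+* A) y)
      = coeffMap (sbar : k →+* k) (coeffMap π y) := by
  rw [coeffMap_coeffMap, coeffMap_coeffMap]
  exact coeffMap_congr (RingHom.ext fun a => h.res a) y

theorem Compat.mem_intRing (h : Compat A π σ σA sbar) {y : LaurentSeries A}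
    (hy : y ∈ intRing A π N) : coeffMap (σA : A →+* A) y ∈ intRing A π N := by
  rw [Fermat.Agent.S18.GaussFromH.mem_intRing] at hy ⊢
  refine ⟨?_, ?_⟩
  · rw [h.coeffMap_subtype]
    exact coeffMap_mem_laurentBaseChange σ hy.1
  · rw [h.coeffMap_res]
    exact coeffMap_mem_fullC _ hy.2

/-- `σ` on integral elements -/
def Compat.mapI (h : Compat A π σ σA sbar) : ↥(intRing A π N) →+* ↥(intRing A π N) where
  toFun y := ⟨coeffMap (σA : A →+* A) y.1, h.mem_intRing y.2⟩
  map_one' := Subtype.ext (map_one _)
  map_mul' _ _ := Subtype.ext (map_mul _ _ _)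
  map_zero' := Subtype.ext (map_zero _)
  map_add' _ _ := Subtype.ext (map_add _ _ _)

theorem Compat.toFL_mapI (h : Compat A π σ σA sbar) (y : ↥(intRing A π N)) :
    toFL A π N (h.mapI y) = arithmeticRingAut (modularFunctionFieldFull N) σ (toFL A π N y) :=
  Subtype.ext (h.coeffMap_subtype y.1)

theorem Compat.red_mapI (h : Compat A π σ σA sbar) (y : ↥(intRing A π N)) :
    red A π N (h.mapI y) = coeffRingAut k N sbar (red A π N y) :=
  Subtype.ext (h.coeffMap_res y.1)

/-- `σ` preserves `Ow`, with the presentation transported -/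
theorem Compat.inOw (h : Compat A π σ σA sbar) {f : FL} {a b : ↥(intRing A π N)}
    (hb : red A π N b ≠ 0) (hab : f * toFL A π N b = toFL A π N a) :
    red A π N (h.mapI b) ≠ 0 ∧
      arithmeticRingAut (modularFunctionFieldFull N) σ f * toFL A π N (h.mapI b)
        = toFL A π N (h.mapI a) := by
  refine ⟨?_, ?_⟩
  · rw [h.red_mapI]
    exact (map_ne_zero_iff _ (coeffRingAut k N sbar).injective).mpr hb
  · rw [h.toFL_mapI, h.toFL_mapI, ← map_mul, hab]

theorem Compat.mem_Ow (h : Compat A π σ σA sbar) {f : FL} (hf : f ∈ Ow A π N) :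
    arithmeticRingAut (modularFunctionFieldFull N) σ f ∈ Ow A π N := by
  obtain ⟨a, b, hb, hab⟩ := hf
  exact ⟨h.mapI a, h.mapI b, (h.inOw hb hab).1, (h.inOw hb hab).2⟩

theorem Compat.mem_Ow_iff (h : Compat A π σ σA sbar) {f : FL} :
    arithmeticRingAut (modularFunctionFieldFull N) σ f ∈ Ow A π N ↔ f ∈ Ow A π N := by
  refine ⟨fun hf => ?_, h.mem_Ow⟩
  have h2 := h.symm.mem_Ow (N := N) hf
  have h3 : arithmeticRingAut (modularFunctionFieldFull N) σ.symm
      (arithmeticRingAut (modularFunctionFieldFull N) σ f) = f := by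
    apply Subtype.ext
    show coeffMap (σ.symm : L →+* L) (coeffMap (σ : L →+* L) (f : LaurentSeries L))
      = (f : LaurentSeries L)
    rw [coeffMap_coeffMap,
      coeffMap_congr (g := RingHom.id L) (RingHom.ext fun a => σ.symm_apply_apply a)
        (f : LaurentSeries L),
      coeffMap_id]
  rwa [h3] at h2

/-- **(E2) for `redw`** -/
theorem Compat.redw_map (h : Compat A π σ σA sbar) (f : ↥(Ow A π N)) :
    redw A π N ⟨arithmeticRingAut (modularFunctionFieldFull N) σ f.1, h.mem_Ow f.2⟩
      = coeffRingAut k N sbar (redw A π N f) := by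
  obtain ⟨a, b, hb, hab⟩ := f.2
  have h1 := h.inOw hb hab
  rw [redw_eq f hb hab,
    redw_eq (⟨arithmeticRingAut (modularFunctionFieldFull N) σ f.1, h.mem_Ow f.2⟩ : ↥(Ow A π N))
      h1.1 h1.2, h.red_mapI, h.red_mapI, map_div₀]

section OwV

variable (hrep : HasRep A π N)

theorem Compat.mem_OwV (h : Compat A π σ σA sbar) {f : FL} (hf : f ∈ OwV A π N hrep) :
    arithmeticRingAut (modularFunctionFieldFull N) σ f ∈ OwV A π N hrep :=
  h.mem_Ow hf

theorem Compat.mem_OwV_iff (h : Compat A π σ σA sbar) {f : FL} :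
    arithmeticRingAut (modularFunctionFieldFull N) σ f ∈ OwV A π N hrep ↔ f ∈ OwV A π N hrep :=
  h.mem_Ow_iff

/-- **(E2)**: `redV (σ f) = sbar (redV f)`. -/
theorem Compat.redV_map (h : Compat A π σ σA sbar) (f : ↥(OwV A π N hrep)) :
    redV A π N hrep ⟨arithmeticRingAut (modularFunctionFieldFull N) σ f.1, h.mem_OwV hrep f.2⟩
      = coeffRingAut k N sbar (redV A π N hrep f) :=
  h.redw_map ⟨f.1, f.2⟩

/-- the same with the `SemilinearAut` actions `arithmeticGalois` and `coeffAut` -/
theorem Compat.redV_smul (h : Compat A π σ σA sbar) (f : ↥(OwV A π N hrep))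
    (hf : arithmeticGalois (modularFunctionFieldFull N) σ • (f : FL) ∈ OwV A π N hrep) :
    redV A π N hrep ⟨arithmeticGalois (modularFunctionFieldFull N) σ • (f : FL), hf⟩
      = coeffAut k N sbar • redV A π N hrep f :=
  h.redV_map hrep f

/-- `σ` maps the Gauss valuation ring onto itself (pointwise action on valuation subrings) -/
theorem Compat.smul_OwV (h : Compat A π σ σA sbar) :
    arithmeticGalois (modularFunctionFieldFull N) σ • OwV A π N hrep = OwV A π N hrep := by
  ext f
  rw [ValuationSubring.mem_smul_pointwise_iff_exists]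
  constructor
  · rintro ⟨g, hg, rfl⟩
    exact h.mem_OwV hrep hg
  · intro hf
    refine ⟨(arithmeticGalois (modularFunctionFieldFull N) σ)⁻¹ • f, ?_, smul_inv_smul _ _⟩
    rw [← h.mem_OwV_iff hrep]
    have : arithmeticRingAut (modularFunctionFieldFull N) σ
        ((arithmeticGalois (modularFunctionFieldFull N) σ)⁻¹ • f) = f :=
      smul_inv_smul (arithmeticGalois (modularFunctionFieldFull N) σ) f
    rwa [this]

end OwV

end Abstract

/-! ### the instance: the decomposition group -/

section Decomposition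

variable {L : Type*} [Field L] [Algebra ℚ L] (A : ValuationSubring L)

/-- the automorphism of the residue field induced by an element of the decomposition group -/
def resAut (g : A.decompositionSubgroup ℚ) : RingAut (IsLocalRing.ResidueField A) :=
  MulSemiringAction.toRingAut (A.decompositionSubgroup ℚ) (IsLocalRing.ResidueField A) g

theorem resAut_apply (g : A.decompositionSubgroup ℚ) (x : IsLocalRing.ResidueField A) :
    resAut A g x = g • x := rfl

theorem resAut_mul (g h : A.decompositionSubgroup ℚ) : resAut A (g * h) = resAut A g * resAut A h :=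
  map_mul _ g h

theorem resAut_one : resAut A 1 = 1 := map_one _

/-- elements of the decomposition group are compatible with the residue map -/
theorem compat (g : A.decompositionSubgroup ℚ) :
    Compat A (IsLocalRing.residue A) (g : L ≃ₐ[ℚ] L)
      (MulSemiringAction.toRingEquiv (A.decompositionSubgroup ℚ) A g) (resAut A g) where
  coe _ := rfl
  res a := IsLocalRing.ResidueField.residue_smul _ g a

/-- inertia acts trivially on the residue field -/
theorem resAut_eq_one_of_mem_inertia {g : A.decompositionSubgroup ℚ}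
    (hg : g ∈ A.inertiaSubgroup ℚ) : resAut A g = 1 :=
  MonoidHom.mem_ker.mp hg

theorem exists_of_mem_inertiaSubgroupIn {σ : L ≃ₐ[ℚ] L} (hσ : σ ∈ A.inertiaSubgroupIn ℚ) :
    ∃ g : A.decompositionSubgroup ℚ, (g : L ≃ₐ[ℚ] L) = σ ∧ resAut A g = 1 := by
  obtain ⟨g, hg, rfl⟩ := Subgroup.mem_map.mp hσ
  exact ⟨g, rfl, resAut_eq_one_of_mem_inertia A hg⟩

/-- a Frobenius element acts as the Frobenius of the residue field -/
theorem resAut_eq_frobAut (ℓ : ℕ) [Fact ℓ.Prime] [CharP (IsLocalRing.ResidueField A) ℓ]
    [PerfectField (IsLocalRing.ResidueField A)] {σ : L ≃ₐ[ℚ] L} (hσ : A.IsFrobeniusAt σ ℓ) :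
    resAut A ⟨σ, hσ.mem_decompositionSubgroup⟩ = frobAut (IsLocalRing.ResidueField A) ℓ := by
  refine RingEquiv.ext fun x => ?_
  rw [resAut_apply, hσ.smul_residue_eq, frobAut_apply]

variable (N : ℕ) [NeZero N]
  (hrep : HasRep A (IsLocalRing.residue A) N)

/-- **(E2) for the decomposition group**: `redV (σ f) = σ̄ (redV f)`. -/
theorem redV_smul_decomposition (g : A.decompositionSubgroup ℚ)
    (f : ↥(OwV A (IsLocalRing.residue A) N hrep)) :
    ∃ hf : arithmeticGalois (modularFunctionFieldFull N) (g : L ≃ₐ[ℚ] L) •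
        (f : ↥(laurentBaseChange L (modularFunctionFieldFull N)))
          ∈ OwV A (IsLocalRing.residue A) N hrep,
      redV A (IsLocalRing.residue A) N hrep ⟨_, hf⟩
        = coeffAut (IsLocalRing.ResidueField A) N (resAut A g) •
            redV A (IsLocalRing.residue A) N hrep f :=
  ⟨(compat A g).mem_OwV hrep f.2, (compat A g).redV_map hrep f⟩

/-- inertia: `redV (σ f) = redV f`. -/
theorem redV_smul_inertia {σ : L ≃ₐ[ℚ] L} (hσ : σ ∈ A.inertiaSubgroupIn ℚ)
    (f : ↥(OwV A (IsLocalRing.residue A) N hrep)) :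
    ∃ hf : arithmeticGalois (modularFunctionFieldFull N) σ •
        (f : ↥(laurentBaseChange L (modularFunctionFieldFull N)))
          ∈ OwV A (IsLocalRing.residue A) N hrep,
      redV A (IsLocalRing.residue A) N hrep ⟨_, hf⟩ = redV A (IsLocalRing.residue A) N hrep f := by
  obtain ⟨g, rfl, hg⟩ := exists_of_mem_inertiaSubgroupIn A hσ
  obtain ⟨hf, h⟩ := redV_smul_decomposition A N hrep g f
  refine ⟨hf, ?_⟩
  rw [h, hg, map_one, one_smul]

/-- Frobenius: `redV (σ f) = Frob (redV f)` (coefficientwise `ℓ`-th powers). -/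
theorem redV_smul_frobenius (ℓ : ℕ) [Fact ℓ.Prime] [CharP (IsLocalRing.ResidueField A) ℓ]
    [PerfectField (IsLocalRing.ResidueField A)] {σ : L ≃ₐ[ℚ] L} (hσ : A.IsFrobeniusAt σ ℓ)
    (f : ↥(OwV A (IsLocalRing.residue A) N hrep)) :
    ∃ hf : arithmeticGalois (modularFunctionFieldFull N) σ •
        (f : ↥(laurentBaseChange L (modularFunctionFieldFull N)))
          ∈ OwV A (IsLocalRing.residue A) N hrep,
      redV A (IsLocalRing.residue A) N hrep ⟨_, hf⟩
        = coeffAut (IsLocalRing.ResidueField A) N (frobAut (IsLocalRing.ResidueField A) ℓ) •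
            redV A (IsLocalRing.residue A) N hrep f := by
  have h := redV_smul_decomposition A N hrep ⟨σ, hσ.mem_decompositionSubgroup⟩ f
  rw [resAut_eq_frobAut A ℓ hσ] at h
  exact h

end Decomposition

end Fermat.Agent.S37.Equivariance.GaussEquiv
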