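/-
PROJECT I (S37), slice I-E (E3) (helper3): place reductions are equivariant for the decomposition
group, hence so is the reduction `JZero N → JZeroC k N`:  (R1), (R2) of
`ReductionJZero.hasReduction_of_equiv`.

ABSTRACT PART (`Compat` of `GaussEquiv`): for `r` with `IsPlaceReductionAlong A π N r` and
`PrincipalGeneratedByIntegral A π N`, on principal divisors `r_* (σ • D) = σ̄ • r_* D`.

`X₀(N)` PART: by helper2's rigidity lemma (`Deuring/Rigidity.placeMap_ext`) the two place maps
`P ↦ r (σ • P)` and `P ↦ σ̄ • r P` coincide (separation through the values `0`, `1` of `j`), so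
`reductionPic0Along r (σ • x) = σ̄ • reductionPic0Along r x`, and the same for `reductionModL A N`.
-/
import Mathlib
import Fermat.Agent.S37.Equivariance.GaussEquiv
import Fermat.Agent.S37.Deuring.Rigidity
import Fermat.Agent.S18.B.FibreX0Id
import Fermat.Agent.S18.B.SeparableFk
import Fermat.Agent.S18.A.RiemannFk
import Fermat.Prelude.Def_ModularCurve_ReductionModL

set_option autoImplicit false
set_option linter.unusedSectionVars false
set_option synthInstance.maxHeartbeats 400000

noncomputable section

namespace Fermat.Agent.S37.Equivariance.PlaceEquiv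

open HahnSeries IntermediateField AlgebraicCurve ModularCurve
  Fermat.Agent.S18.GaussFromH Fermat.Agent.S37.Equivariance.CoeffAut
  Fermat.Agent.S37.Equivariance.GaussEquiv

/-! ### abstract part: principal divisors -/

section Abstract

variable {L : Type*} [Field L] [Algebra ℚ L] {A : ValuationSubring L}
variable {k : Type*} [Field k] {π : A →+* k} {N : ℕ} [NeZero N]
variable {σ : L ≃ₐ[ℚ] L} {σA : A ≃+* A} {sbar : k ≃+* k}
variable {r : Place L (laurentBaseChange L (modularFunctionFieldFull N)) →
  Place k (modularFunctionFieldFullC k N)}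

/-- on the divisor of an integral element -/
theorem mapDomain_smul_of_integral (h : Compat A π σ σA sbar)
    (hr : IsPlaceReductionAlong A π N r)
    {D : Divisor L (laurentBaseChange L (modularFunctionFieldFull N))}
    (hD : D ∈ integralPrincipalDivisors A π N) :
    Finsupp.mapDomain r (arithmeticGalois (modularFunctionFieldFull N) σ • D)
      = coeffAut k N sbar • Finsupp.mapDomain r D := by
  obtain ⟨y, hy, hyk, hne, hDy⟩ := hD
  have hmem := h.mem_intRing (N := N) (y := y) ⟨hy, hyk⟩
  have hy' := hmem.1
  have hyk' := hmem.2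
  have hne' : coeffMap π (coeffMap (σA : A →+* A) y) ≠ 0 := by
    rw [h.coeffMap_res]
    intro h0
    apply hne
    have h1 : coeffRingAut k N sbar ⟨coeffMap π y, hyk⟩ = 0 := Subtype.ext h0
    have h2 := (map_eq_zero_iff _ (coeffRingAut k N sbar).injective).mp h1
    exact congrArg Subtype.val h2
  ext Q
  -- left-hand side
  have hL := hr.2 (coeffMap (σA : A →+* A) y) hy' hyk' hne'
    (arithmeticGalois (modularFunctionFieldFull N) σ • D) (fun P => by
      rw [SemilinearAut.divisor_smul_apply, hDy]
      have h1 := SemilinearAut.ord_smul (arithmeticGalois (modularFunctionFieldFull N) σ)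
        ((arithmeticGalois (modularFunctionFieldFull N) σ)⁻¹ • P)
        (⟨coeffMap A.subtype y, hy⟩ : laurentBaseChange L (modularFunctionFieldFull N))
      rw [smul_inv_smul] at h1
      rw [← h1]
      congr 1
      exact Subtype.ext (h.coeffMap_subtype y).symm) Q
  rw [hL, SemilinearAut.divisor_smul_apply,
    hr.2 y hy hyk hne D hDy ((coeffAut k N sbar)⁻¹ • Q)]
  have h2 := SemilinearAut.ord_smul (coeffAut k N sbar) ((coeffAut k N sbar)⁻¹ • Q)
    (⟨coeffMap π y, hyk⟩ : modularFunctionFieldFullC k N)
  rw [smul_inv_smul] at h2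
  rw [← h2]
  congr 1
  exact Subtype.ext (h.coeffMap_res y)

/-- **on principal divisors `r_* (σ • D) = σ̄ • r_* D`** -/
theorem mapDomain_smul_of_principal (h : Compat A π σ σA sbar)
    (hr : IsPlaceReductionAlong A π N r) (hgen : PrincipalGeneratedByIntegral A π N)
    {D : Divisor L (laurentBaseChange L (modularFunctionFieldFull N))}
    (hD : D ∈ Divisor.principal (K := L) (F := laurentBaseChange L (modularFunctionFieldFull N))) :
    Finsupp.mapDomain r (arithmeticGalois (modularFunctionFieldFull N) σ • D)
      = coeffAut k N sbar • Finsupp.mapDomain r D := by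
  have hD' := hgen hD
  clear hD
  induction hD' using AddSubgroup.closure_induction with
  | mem E hE => exact mapDomain_smul_of_integral h hr hE
  | zero => simp
  | add E E' _ _ hE hE' =>
    rw [smul_add, Finsupp.mapDomain_add, Finsupp.mapDomain_add, smul_add, hE, hE']
  | neg E _ hE =>
    have hneg : ∀ E' : Divisor L (laurentBaseChange L (modularFunctionFieldFull N)),
        Finsupp.mapDomain r (-E') = -Finsupp.mapDomain r E' :=
      fun E' => (Finsupp.mapDomain.addMonoidHom r).map_neg E'
    rw [smul_neg, hneg, hneg, smul_neg, hE]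

/-- the shape of `Rigidity.placeMap_ext` -/
theorem mapDomain_comp_eq (h : Compat A π σ σA sbar)
    (hr : IsPlaceReductionAlong A π N r) (hgen : PrincipalGeneratedByIntegral A π N)
    {D : Divisor L (laurentBaseChange L (modularFunctionFieldFull N))}
    (hD : D ∈ Divisor.principal (K := L) (F := laurentBaseChange L (modularFunctionFieldFull N))) :
    Finsupp.mapDomain (fun P => r (arithmeticGalois (modularFunctionFieldFull N) σ • P)) D
      = Finsupp.mapDomain (fun P => coeffAut k N sbar • r P) D := by
  have h1 : (fun P => r (arithmeticGalois (modularFunctionFieldFull N) σ • P))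
      = r ∘ (fun P => arithmeticGalois (modularFunctionFieldFull N) σ • P) := rfl
  have h2 : (fun P => coeffAut k N sbar • r P) = (fun Q => coeffAut k N sbar • Q) ∘ r := rfl
  rw [h1, h2, Finsupp.mapDomain_comp, Finsupp.mapDomain_comp,
    ← SemilinearAut.divisor_smul_def, ← SemilinearAut.divisor_smul_def]
  exact mapDomain_smul_of_principal h hr hgen hD

/-- if the place maps agree, so do the maps on `Pic0` -/
theorem reductionPic0Along_smul
    (hr : IsPlaceReductionAlong A π N r) (hgen : PrincipalGeneratedByIntegral A π N)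
    (hP : ∀ P, r (arithmeticGalois (modularFunctionFieldFull N) σ • P)
      = coeffAut k N sbar • r P)
    (x : Pic0 L (laurentBaseChange L (modularFunctionFieldFull N))) :
    reductionPic0Along r hr hgen (arithmeticGalois (modularFunctionFieldFull N) σ • x)
      = coeffAut k N sbar • reductionPic0Along r hr hgen x := by
  obtain ⟨D, rfl⟩ := Pic0.mk_surjective x
  rw [SemilinearAut.pic0_smul_mk, reductionPic0Along_mk, reductionPic0Along_mk,
    SemilinearAut.pic0_smul_mk]
  refine congrArg Pic0.mk (Subtype.ext ?_)
  rw [coe_reductionDegZeroAlong, SemilinearAut.coe_degZeroSMulHom,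
    SemilinearAut.coe_degZeroSMulHom, coe_reductionDegZeroAlong,
    SemilinearAut.divisor_smul_def, SemilinearAut.divisor_smul_def,
    ← Finsupp.mapDomain_comp, ← Finsupp.mapDomain_comp]
  congr 1
  funext P
  exact hP P

end Abstract

/-! ### `X₀(N)`: equivariance of the place reduction by rigidity -/

section X0

open IsLocalRing Fermat.Agent.S24.FF Fermat.Agent.S18.A.FibreSep
open Fermat.Agent.S24.DegreeAlg (jgen)
open Fermat.Agent.S18.B.FkBasics (jk)
open Fermat.Agent.S18.B.FibreX0Id (hL sL hk)

local notation "Kb" => AlgebraicClosure ℚ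

variable (A : ValuationSubring Kb) (N : ℕ) [NeZero N]

/-- instance shortcut (as in `B/FibreX0Id`) -/
noncomputable local instance algShortcut :
    Algebra (ResidueField A) ↥(modularFunctionFieldFullC (ResidueField A) N) :=
  SubalgebraClass.toAlgebra (modularFunctionFieldFullC (ResidueField A) N)

/-- `j` is fixed by the Galois action on `F_L` -/
theorem smul_jgen (σ : Kb ≃ₐ[ℚ] Kb) :
    arithmeticGalois (modularFunctionFieldFull N) σ • jgen N = jgen N := by
  apply Subtype.ext
  rw [coe_arithmeticGalois_smul, Fermat.Agent.S24.DegreeAlg.coe_jgen, coeffMap_coeffEmb]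

/-- `j̄` is fixed by the coefficientwise action on `F_k` -/
theorem smul_jk (k : Type*) [Field k] (τ : RingAut k) : coeffAut k N τ • jk k N = jk k N := by
  apply Subtype.ext
  rw [coe_coeffAut_smul]
  exact coeffMap_jqModC _

variable {A N}
variable {r : Place Kb ↥(modularFunctionFieldBar N) →
  Place (ResidueField A) ↥(modularFunctionFieldFullC (ResidueField A) N)}
variable {ℓ : ℕ} [Fact ℓ.Prime]

/-- both place maps send the fibre of `j` over `c` into the fibre of `j̄` over `c̄`, when `c` is
fixed -/
theorem exists_mem_zeros_both [IsAlgClosed (ResidueField A)]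
    (sk : Algebra.IsSeparable (ResidueField A)⟮jk (ResidueField A) N⟯
      ↥(modularFunctionFieldFullC (ResidueField A) N))
    (hA : A.LiesOverPrime ℓ) (hℓN : ¬ ℓ ∣ N)
    (hr : IsPlaceReductionAlong A (residue A) N r)
    (gσ : SemilinearAut Kb ↥(modularFunctionFieldBar N))
    (gs : SemilinearAut (ResidueField A) ↥(modularFunctionFieldFullC (ResidueField A) N))
    (c : A)
    (h1 : gσ • (jgen N - algebraMap Kb ↥(modularFunctionFieldBar N) (c : Kb))
        = jgen N - algebraMap Kb ↥(modularFunctionFieldBar N) (c : Kb))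
    (h2 : gs • (jk (ResidueField A) N - algebraMap (ResidueField A)
          ↥(modularFunctionFieldFullC (ResidueField A) N) (residue A c))
        = jk (ResidueField A) N - algebraMap (ResidueField A)
          ↥(modularFunctionFieldFullC (ResidueField A) N) (residue A c)) :
    ∃ P₂ : Place Kb ↥(modularFunctionFieldBar N),
      r (gσ • P₂) ∈ zeros (hk A N) sk (residue A c) ∧
      gs • r P₂ ∈ zeros (hk A N) sk (residue A c) := by
  obtain ⟨P₂, hP₂⟩ := Fermat.Agent.S18.A.Instances.exists_place_over (hL N) (sL N) (c : Kb)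
  have hP₂z : P₂ ∈ zeros (hL N) (sL N) (c : Kb) := (mem_zeros (hL N) (sL N) _ P₂).mpr hP₂
  refine ⟨P₂, ?_, ?_⟩
  · refine Fermat.Agent.S18.B.FibreX0Id.mem_zeros_map hr sk hA hℓN c ?_
    rw [mem_zeros_iff_ord_pos] at hP₂z ⊢
    rw [← h1, SemilinearAut.ord_smul]
    exact hP₂z
  · have h3 := Fermat.Agent.S18.B.FibreX0Id.mem_zeros_map hr sk hA hℓN c hP₂z
    rw [mem_zeros_iff_ord_pos] at h3 ⊢
    rw [← h2, SemilinearAut.ord_smul]
    exact h3

/-- a place of `F_k` is not over both `0` and `1` -/
theorem not_mem_zeros_zero_and_one [IsAlgClosed (ResidueField A)]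
    (sk : Algebra.IsSeparable (ResidueField A)⟮jk (ResidueField A) N⟯
      ↥(modularFunctionFieldFullC (ResidueField A) N))
    (Q₁ : Place (ResidueField A) ↥(modularFunctionFieldFullC (ResidueField A) N))
    (hQ : Q₁ ∈ zeros (hk A N) sk (residue A 0)) :
    Q₁ ∉ zeros (hk A N) sk (residue A 1) := by
  intro hQ1
  rw [mem_zeros] at hQ hQ1
  rw [map_zero, map_zero, sub_zero] at hQ
  rw [map_one, map_one] at hQ1
  have h3 : Q₁.adicValuation (1 : ↥(modularFunctionFieldFullC (ResidueField A) N)) < 1 := by
    have h4 : (1 : ↥(modularFunctionFieldFullC (ResidueField A) N))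
        = jk (ResidueField A) N - (jk (ResidueField A) N - 1) := by ring
    rw [h4]
    exact lt_of_le_of_lt (Valuation.map_sub _ _ _) (max_lt hQ hQ1)
  rw [map_one] at h3
  exact lt_irrefl _ h3

theorem smul_sub_zero_L (σ : Kb ≃ₐ[ℚ] Kb) :
    arithmeticGalois (modularFunctionFieldFull N) σ •
        (jgen N - algebraMap Kb ↥(modularFunctionFieldBar N) (((0 : A) : Kb)))
      = jgen N - algebraMap Kb ↥(modularFunctionFieldBar N) (((0 : A) : Kb)) := by
  rw [ZeroMemClass.coe_zero, map_zero, sub_zero, smul_jgen]

theorem smul_sub_one_L (σ : Kb ≃ₐ[ℚ] Kb) :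
    arithmeticGalois (modularFunctionFieldFull N) σ •
        (jgen N - algebraMap Kb ↥(modularFunctionFieldBar N) (((1 : A) : Kb)))
      = jgen N - algebraMap Kb ↥(modularFunctionFieldBar N) (((1 : A) : Kb)) := by
  rw [OneMemClass.coe_one, map_one, smul_sub, smul_one, smul_jgen]

theorem smul_sub_const_k (k : Type*) [Field k] (τ : RingAut k) (c : k) (hc : τ c = c) :
    coeffAut k N τ • (jk k N - algebraMap k ↥(modularFunctionFieldFullC k N) c)
      = jk k N - algebraMap k ↥(modularFunctionFieldFullC k N) c := by
  rw [smul_sub, smul_jk, SemilinearAut.smul_algebraMap, baseAut_coeffAut, hc]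

theorem smul_sub_zero_k (τ : RingAut (ResidueField A)) :
    coeffAut (ResidueField A) N τ •
        (jk (ResidueField A) N - algebraMap (ResidueField A)
          ↥(modularFunctionFieldFullC (ResidueField A) N) (residue A 0))
      = jk (ResidueField A) N - algebraMap (ResidueField A)
          ↥(modularFunctionFieldFullC (ResidueField A) N) (residue A 0) :=
  smul_sub_const_k (N := N) (ResidueField A) τ (residue A 0) (by
    rw [(residue A).map_zero]; exact map_zero τ)

theorem smul_sub_one_k (τ : RingAut (ResidueField A)) :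
    coeffAut (ResidueField A) N τ •
        (jk (ResidueField A) N - algebraMap (ResidueField A)
          ↥(modularFunctionFieldFullC (ResidueField A) N) (residue A 1))
      = jk (ResidueField A) N - algebraMap (ResidueField A)
          ↥(modularFunctionFieldFullC (ResidueField A) N) (residue A 1) :=
  smul_sub_const_k (N := N) (ResidueField A) τ (residue A 1) (by
    rw [(residue A).map_one]; exact map_one τ)

/-- **(E3)**: every place reduction is equivariant for the decomposition group. -/
theorem placeMap_smul (hA : A.LiesOverPrime ℓ) (hℓN : ¬ ℓ ∣ N)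
    (hr : IsPlaceReductionAlong A (residue A) N r)
    (hgen : PrincipalGeneratedByIntegral A (residue A) N)
    (g : A.decompositionSubgroup ℚ) (P : Place Kb ↥(modularFunctionFieldBar N)) :
    r (arithmeticGalois (modularFunctionFieldFull N) (g : Kb ≃ₐ[ℚ] Kb) • P)
      = coeffAut (ResidueField A) N (resAut A g) • r P := by
  have hac := Fermat.Agent.S18.ResidueBasics.isAlgClosed_residueField A
  have sk := Fermat.Agent.S18.B.SeparableFk.isSeparable_jk (ResidueField A) N
  obtain ⟨gL, hR⟩ := Fermat.Agent.S18.A.RiemannFk.exists_riemannHyp_FL N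
  have hpd := Fermat.Agent.S18.A.Instances.hasPrincipalDivisors_bar N
  have key0 := exists_mem_zeros_both sk hA hℓN hr
    (arithmeticGalois (modularFunctionFieldFull N) (g : Kb ≃ₐ[ℚ] Kb))
    (coeffAut (ResidueField A) N (resAut A g)) 0
    (smul_sub_zero_L _) (smul_sub_zero_k _)
  have key1 := exists_mem_zeros_both sk hA hℓN hr
    (arithmeticGalois (modularFunctionFieldFull N) (g : Kb ≃ₐ[ℚ] Kb))
    (coeffAut (ResidueField A) N (resAut A g)) 1
    (smul_sub_one_L _) (smul_sub_one_k _)
  refine congrFun (Fermat.Agent.S37.Deuring.Rigidity.placeMap_ext hR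
    (fun P => r (arithmeticGalois (modularFunctionFieldFull N) (g : Kb ≃ₐ[ℚ] Kb) • P))
    (fun P => coeffAut (ResidueField A) N (resAut A g) • r P)
    (fun D hD => mapDomain_comp_eq (compat A g) hr hgen hD) ?_) P
  intro Q₁
  by_cases hQ : Q₁ ∈ zeros (hk A N) sk (residue A 0)
  · -- `Q₁` lies over `0`, use the fibre over `1`
    obtain ⟨P₂, h1, h2⟩ := key1
    have hne := not_mem_zeros_zero_and_one sk Q₁ hQ
    exact ⟨P₂, fun h => hne (h ▸ h1), fun h => hne (h ▸ h2)⟩
  · obtain ⟨P₂, h1, h2⟩ := key0
    exact ⟨P₂, fun h => hQ (h ▸ h1), fun h => hQ (h ▸ h2)⟩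

/-- (E3) on `Pic0`: `red (σ • x) = σ̄ • red x` for the reduction attached to any `r`. -/
theorem reductionPic0Along_smul_decomposition (hA : A.LiesOverPrime ℓ) (hℓN : ¬ ℓ ∣ N)
    (hr : IsPlaceReductionAlong A (residue A) N r)
    (hgen : PrincipalGeneratedByIntegral A (residue A) N)
    (g : A.decompositionSubgroup ℚ) (x : JZero N) :
    reductionPic0Along r hr hgen ((g : Kb ≃ₐ[ℚ] Kb) • x)
      = pic0Equiv (ResidueField A) N (resAut A g) (reductionPic0Along r hr hgen x) := by
  rw [galois_smul_pic0_def, pic0Equiv_apply]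
  exact reductionPic0Along_smul hr hgen (fun P => placeMap_smul hA hℓN hr hgen g P) x

/-- **(E3) for `reductionModL`** (no hypothesis `ReductionInputsModL`: if it fails, the map is
zero). -/
theorem reductionModL_smul (hA : A.LiesOverPrime ℓ) (hℓN : ¬ ℓ ∣ N)
    (g : A.decompositionSubgroup ℚ) (x : JZero N) :
    reductionModL A N ((g : Kb ≃ₐ[ℚ] Kb) • x)
      = pic0Equiv (ResidueField A) N (resAut A g) (reductionModL A N x) := by
  by_cases h : ReductionInputsModL A N
  · rw [reductionModL, reductionAlong_eq h]
    exact reductionPic0Along_smul_decomposition hA hℓN h.choose_spec.1 h.choose_spec.2 g x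
  · rw [reductionModL_of_not h]
    simp

/-- **(R1)**: the reduction is invariant under inertia. -/
theorem reductionModL_smul_inertia (hA : A.LiesOverPrime ℓ) (hℓN : ¬ ℓ ∣ N)
    {σ : Kb ≃ₐ[ℚ] Kb} (hσ : σ ∈ A.inertiaSubgroupIn ℚ) (x : JZero N) :
    reductionModL A N (σ • x) = reductionModL A N x := by
  obtain ⟨g, rfl, hg⟩ := exists_of_mem_inertiaSubgroupIn A hσ
  rw [reductionModL_smul hA hℓN g x, hg, pic0Equiv_one]

/-- **(R2)**: a Frobenius element acts through the Frobenius of `JZeroC k N`. -/
theorem reductionModL_smul_frobenius (hA : A.LiesOverPrime ℓ) (hℓN : ¬ ℓ ∣ N)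
    [CharP (ResidueField A) ℓ] [PerfectField (ResidueField A)]
    {σ : Kb ≃ₐ[ℚ] Kb} (hσ : A.IsFrobeniusAt σ ℓ) (x : JZero N) :
    reductionModL A N (σ • x) = frobPic0 (ResidueField A) N ℓ (reductionModL A N x) := by
  have h := reductionModL_smul hA hℓN ⟨σ, hσ.mem_decompositionSubgroup⟩ x
  rw [resAut_eq_frobAut A ℓ hσ] at h
  exact h

end X0

end Fermat.Agent.S37.Equivariance.PlaceEquiv
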